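import Mathlib
import Fermat.Agent.FF3.DVCompl.API
import Fermat.Agent.FF3.GaussLoc.Loc

/-!
# PROGRAMME I, step B, seam `b1 / b2 / bT` (helper16): the boundary maps of the expansion package
from the DV-completion package, abstract form

`F₀ ≤ F` the rational functions over the level, `D : DVCompl.Datum F₀` the datum of a component
(`D.O₀ = O ∩ F₀`, `D.w = ϖ`), `R ≤ F` the finite-level local ring at a node (or a smooth point) of
that component with `Frac R = F₀`, `V : GaussLoc.VertData R O` (helper15: `O ∩ Frac R = R_J`, a DVR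
with uniformiser `ϖ`).  `Link D V` records the compatibility of the two.

For every ring hom `ψ : R →+* E` inverting `R \ J` into a ring `E` which is `ψ ϖ`-adically complete:

* `Link.ell : R →+* D.Oh` (the map `ℓ` of helper22's `B4.SideHyp`), `Link.ell_apply`;
* `Link.bOf ψ hψ hE : D.Oh →+* E` (the map `b`), `Link.bOf_ell` (**the commuting square on the
  level ring**: `b (ℓ ρ) = ψ ρ`), `Link.bOf_wh`, `Link.bOf_mk_emb` (the form met in
  `CompPack.ofRatAt`), `Link.eq_bOf` / `Link.bOf_ext` (uniqueness);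
* `Link.exists_mul_ell_eq` (**density**, the hypothesis `hdens1` of `B4/Taylor.lean`):
  `∀ y : D.Oh, ∃ α σ : R, σ ∉ J ∧ ∃ y', y * ℓ σ = ℓ α + ϖ * y'`; `Link.isUnit_ell` (`ℓ σ` is a unit
  for `σ ∉ J`), `Link.resh_ell_ne_zero`.
-/

set_option autoImplicit false
set_option linter.style.haveILetI false
set_option linter.unusedSectionVars false

noncomputable section

namespace Fermat.Agent.FF3.BLift

open Fermat.Agent.FF3.DVCompl Fermat.Agent.FF3.GaussLoc Fermat.Agent.FF3.ExpandDisc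

variable {F : Type*} [Field F] {F₀ : Subfield F} {R : Subring F} {O : ValuationSubring F}

/-- The compatibility of the component datum `D` (on `F₀`) with the vertical data `V` of a finite
level local ring `R` with `Frac R = F₀`. -/
structure Link (D : Datum F₀) (V : VertData R O) : Prop where
  /-- `D.O₀ = O ∩ F₀` -/
  mem_iff : ∀ x : F₀, x ∈ D.O₀ ↔ (x : F) ∈ O
  /-- `R ⊆ F₀` -/
  le : ∀ y ∈ R, y ∈ F₀
  /-- `F₀ ⊆ Frac R` -/
  frac : ∀ x : F₀, IsFrac R (x : F)
  /-- the two uniformisers agree -/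
  unif : ((D.w : F₀) : F) = (V.ϖ : F)

namespace Link

variable {D : Datum F₀} {V : VertData R O} (h : Link D V)

include h

/-- `R → O ∩ F₀` -/
def ofR : R →+* D.O₀ where
  toFun r := ⟨⟨(r : F), h.le r r.2⟩, (h.mem_iff _).2 (V.le r r.2)⟩
  map_one' := rfl
  map_mul' _ _ := rfl
  map_zero' := rfl
  map_add' _ _ := rfl

@[simp] theorem coe_ofR (r : R) : (((h.ofR r : D.O₀) : F₀) : F) = (r : F) := rfl

theorem ofR_unif : h.ofR V.ϖ = D.w₀ := by
  apply Subtype.ext
  apply Subtype.ext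
  exact h.unif.symm

/-- `O ∩ F₀ → O ∩ Frac R` -/
def toGaussRing : D.O₀ →+* gaussRingOf R O where
  toFun x := ⟨((x : F₀) : F), ⟨(h.mem_iff x).1 x.2, h.frac x⟩⟩
  map_one' := rfl
  map_mul' _ _ := rfl
  map_zero' := rfl
  map_add' _ _ := rfl

@[simp] theorem coe_toGaussRing (x : D.O₀) : ((h.toGaussRing x : gaussRingOf R O) : F) = ((x : F₀) : F) :=
  rfl

theorem toGaussRing_ofR (r : R) : h.toGaussRing (h.ofR r) = V.toGauss r := rfl

theorem toGaussRing_injective : Function.Injective h.toGaussRing := by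
  intro x y hxy
  apply Subtype.ext
  apply Subtype.ext
  exact congrArg (fun z : gaussRingOf R O => (z : F)) hxy

/-- every element of `O ∩ F₀` is a quotient `α / σ` with `σ ∉ J` -/
theorem exists_mul_ofR_eq (x : D.O₀) : ∃ α σ : R, σ ∉ V.J ∧ x * h.ofR σ = h.ofR α := by
  haveI := V.prime
  letI := V.toGauss.toAlgebra
  haveI := V.isLocalization_gaussRingOf
  obtain ⟨⟨α, σ⟩, hασ⟩ := IsLocalization.surj (M := V.J.primeCompl) (h.toGaussRing x)
  refine ⟨α, σ.1, σ.2, ?_⟩
  apply h.toGaussRing_injective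
  rw [map_mul, toGaussRing_ofR, toGaussRing_ofR]
  exact hασ

/-- an element of `R \ J` is a unit of `O ∩ F₀` -/
theorem isUnit_ofR {σ : R} (hσ : σ ∉ V.J) : IsUnit (h.ofR σ) := by
  have h1 := V.valuation_eq_one hσ
  have hs0 : (σ : F) ≠ 0 := by
    intro h0
    rw [h0, map_zero] at h1
    exact zero_ne_one h1
  have hinvO : (σ : F)⁻¹ ∈ O := by
    rw [← O.valuation_le_one_iff, map_inv₀, h1, inv_one]
  have hinv : ((⟨(σ : F), h.le σ σ.2⟩ : F₀)⁻¹ : F₀) ∈ D.O₀ := by
    rw [h.mem_iff, Subfield.coe_inv]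
    exact hinvO
  refine IsUnit.of_mul_eq_one ⟨_, hinv⟩ ?_
  apply Subtype.ext
  apply Subtype.ext
  show (σ : F) * (((⟨(σ : F), h.le σ σ.2⟩ : F₀)⁻¹ : F₀) : F) = 1
  rw [Subfield.coe_inv]
  exact mul_inv_cancel₀ hs0

/-- **Extensionality on `O ∩ F₀ = R_J`**: two ring homomorphisms from `O ∩ F₀` which agree on `R`
are equal (target-agnostic form, for the equivariance of the boundary maps). -/
theorem ringHom_ext_ofR {C : Type*} [CommRing C] {A B : D.O₀ →+* C}
    (hAB : ∀ r : R, A (h.ofR r) = B (h.ofR r)) : A = B := by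
  ext x
  obtain ⟨α, σ, hσ, hασ⟩ := h.exists_mul_ofR_eq x
  have hu : IsUnit (A (h.ofR σ)) := (h.isUnit_ofR hσ).map A
  have h1 : A x * A (h.ofR σ) = A (h.ofR α) := by rw [← map_mul, hασ]
  have h2 : B x * A (h.ofR σ) = A (h.ofR α) := by rw [hAB σ, hAB α, ← map_mul, hασ]
  exact hu.mul_right_cancel (h1.trans h2.symm)

theorem ringHom_congr_ofR {C : Type*} [CommRing C] {A B : D.O₀ →+* C}
    (hAB : ∀ r : R, A (h.ofR r) = B (h.ofR r)) (x : D.O₀) : A x = B x := by
  rw [h.ringHom_ext_ofR hAB]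

/-- an endomorphism of the datum which restricts on `R` to `g` sends `ofR r` to `ofR (g r)` -/
theorem resO_ofR (f : Datum.Hom D D) (g : R → R)
    (hg : ∀ r : R, ((f.σ ⟨(r : F), h.le r r.2⟩ : F₀) : F) = (g r : F)) (r : R) :
    f.resO (h.ofR r) = h.ofR (g r) := by
  apply Subtype.ext
  apply Subtype.ext
  exact hg r

/-- the same between two data (level change / transport along an isomorphism of levels) -/
theorem resO_ofR' {F₀' : Subfield F} {D' : Datum F₀'} {R' : Subring F} {O' : ValuationSubring F}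
    {V' : VertData R' O'} (h' : Link D' V') (f : Datum.Hom D D') (g : R → R')
    (hg : ∀ r : R, ((f.σ ⟨(r : F), h.le r r.2⟩ : F₀') : F) = (g r : F)) (r : R) :
    f.resO (h.ofR r) = h'.ofR (g r) := by
  apply Subtype.ext
  apply Subtype.ext
  exact hg r

/-- **The map `ℓ : R →+* Ô`** of the finite-level local ring to the completed valuation ring. -/
def ell : R →+* D.Oh := D.embO.comp h.ofR

theorem ell_apply (r : R) : h.ell r = D.embO (h.ofR r) := rfl

theorem coe_ell (r : R) : ((h.ell r : D.Oh) : D.Lh) = D.emb ⟨(r : F), h.le r r.2⟩ := by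
  rw [ell_apply, D.coe_embO]
  rfl

theorem ell_unif : h.ell V.ϖ = D.wh := by
  rw [ell_apply, h.ofR_unif]
  rfl

theorem isUnit_ell {σ : R} (hσ : σ ∉ V.J) : IsUnit (h.ell σ) := (h.isUnit_ofR hσ).map D.embO

/-- **Density** (`hdens1` of `B4/Taylor.lean`): modulo the uniformiser every element of the
completed valuation ring is a quotient `α / σ` of elements of `R`, `σ ∉ J`. -/
theorem exists_mul_ell_eq (y : D.Oh) :
    ∃ α σ : R, σ ∉ V.J ∧ ∃ y' : D.Oh, y * h.ell σ = h.ell α + D.wh * y' := by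
  obtain ⟨a, ha⟩ := D.exists_wh_pow_dvd_sub_embO y 1
  rw [pow_one] at ha
  obtain ⟨y', hy'⟩ := ha
  obtain ⟨α, σ, hσ, hασ⟩ := h.exists_mul_ofR_eq a
  refine ⟨α, σ, hσ, y' * h.ell σ, ?_⟩
  have e : y = D.embO a + D.wh * y' := by rw [← hy']; ring
  rw [ell_apply, ell_apply, ← hασ, map_mul, e]
  ring

section residue

variable {k' : Type*} [CommRing k'] [Nontrivial k'] (res : D.O₀ →+* k') (hres : res D.w₀ = 0)

theorem resh_ell (r : R) : D.resh res hres (h.ell r) = res (h.ofR r) := D.resh_embO res hres _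

theorem resh_ell_ne_zero {σ : R} (hσ : σ ∉ V.J) : D.resh res hres (h.ell σ) ≠ 0 := by
  rw [Ne, D.resh_eq_zero_iff res hres, not_not]
  exact h.isUnit_ell hσ

end residue

section lift

variable {E : Type*} [CommRing E] (ψ : R →+* E) (hψ : ∀ s : R, s ∉ V.J → IsUnit (ψ s))

/-- the extension of `ψ` to `O ∩ F₀` -/
def phi : D.O₀ →+* E := (V.gaussLift ψ hψ).comp h.toGaussRing

theorem phi_ofR (r : R) : h.phi ψ hψ (h.ofR r) = ψ r := by
  show V.gaussLift ψ hψ (h.toGaussRing (h.ofR r)) = ψ r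
  rw [toGaussRing_ofR, V.gaussLift_toGauss]

theorem phi_w₀ : h.phi ψ hψ D.w₀ = ψ V.ϖ := by rw [← h.ofR_unif, phi_ofR]

theorem eq_phi (φ : D.O₀ →+* E) (hφ : ∀ r : R, φ (h.ofR r) = ψ r) : φ = h.phi ψ hψ := by
  ext x
  obtain ⟨α, σ, hσ, hασ⟩ := h.exists_mul_ofR_eq x
  have hu : IsUnit (ψ σ) := hψ σ hσ
  have h1 : φ x * ψ σ = ψ α := by rw [← hφ σ, ← hφ α, ← map_mul, hασ]
  have h2 : h.phi ψ hψ x * ψ σ = ψ α := by
    rw [← h.phi_ofR ψ hψ σ, ← h.phi_ofR ψ hψ α, ← map_mul, hασ]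
  exact hu.mul_right_cancel (h1.trans h2.symm)

variable (hE : IsAdicComplete (Ideal.span {ψ V.ϖ}) E)

include hE

theorem isAdicComplete_phi : IsAdicComplete (Ideal.span {h.phi ψ hψ D.w₀}) E := by
  rw [h.phi_w₀]
  exact hE

/-- **The boundary map `b : Ô →+* E`** extending `ψ : R →+* E`. -/
def bOf : D.Oh →+* E := D.lift (h.phi ψ hψ) (h.isAdicComplete_phi ψ hψ hE)

theorem bOf_embO (x : D.O₀) : h.bOf ψ hψ hE (D.embO x) = h.phi ψ hψ x := D.lift_embO _ _ x

/-- **The square commutes on the level ring.** -/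
theorem bOf_ell (r : R) : h.bOf ψ hψ hE (h.ell r) = ψ r := by
  rw [ell_apply, bOf_embO, phi_ofR]

theorem bOf_wh : h.bOf ψ hψ hE D.wh = ψ V.ϖ := by rw [← h.ell_unif, bOf_ell]

/-- the commuting square in the form met in `CompPack.ofRatAt` -/
theorem bOf_mk_emb (r : R) (hm : D.emb ⟨(r : F), h.le r r.2⟩ ∈ D.Oh) :
    h.bOf ψ hψ hE ⟨D.emb ⟨(r : F), h.le r r.2⟩, hm⟩ = ψ r := by
  rw [← h.bOf_ell ψ hψ hE r]
  congr 1
  apply Subtype.ext
  exact (h.coe_ell r).symm

/-- uniqueness -/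
theorem eq_bOf (β : D.Oh →+* E) (hβ : ∀ r : R, β (h.ell r) = ψ r) : β = h.bOf ψ hψ hE := by
  refine D.eq_lift _ _ β fun x => ?_
  have := h.eq_phi ψ hψ (β.comp D.embO) hβ
  rw [← this]
  rfl

include hψ in
theorem bOf_ext {β β' : D.Oh →+* E} (hβ : ∀ r : R, β (h.ell r) = ψ r)
    (hβ' : ∀ r : R, β' (h.ell r) = ψ r) : β = β' :=
  (h.eq_bOf ψ hψ hE β hβ).trans (h.eq_bOf ψ hψ hE β' hβ').symm

end lift

end Link

end Fermat.Agent.FF3.BLift
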