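import Mathlib
import Fermat.Agent.FF3.BLift.Abstract
import Fermat.Agent.FF3.ExpandBR.Part
import Fermat.Agent.FF3.B4.CompInst
import Fermat.Agent.FF3.NodeRing.BallAdic

/-!
# PROGRAMME I, step B, seam `b1 / b2` (helper16): the `NodeInput` of helper20's node part at the
component pack `CompPack.ofDatum`

Given the three main-dialect facts `LevelLink` (`unif_eq`, `le_F₀`, `frac`: the function field `F₀`
of the level is the fraction field of the level ring `R_i`, with the same uniformiser), the boundary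
maps

  `b1 : (D (src e)).Oh →+* BAmice K₁`,  `b2 : (D (tgt e)).Oh →+* BAmice K₁`

are THE extensions (`BLift.Link.bOf`: localisation at the vertical prime, then `DVCompl.lift`) of
`toX ∘ levelExpand`, `toY ∘ levelExpand : R_i → ball (BAmice K₁)`; all the fields of `NodeInput`
(bounds, commuting squares, density) are proved: `nodeInput`.  Hence `nodePart`.
-/

set_option autoImplicit false
set_option linter.unusedSectionVars false

noncomputable section

namespace Fermat.Agent.FF3.BLift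

open AlgebraicCurve IsLocalRing Fermat.Agent.Red Fermat.Agent.BR.Centre Fermat.Agent.BR.SS
  Fermat.Agent.BR.Refine Fermat.Agent.BR.S0 Fermat.Agent.BR.S0.AnnulusChartOfLevels
  Fermat.Agent.FF3 Fermat.Agent.FF3.Amice Fermat.Agent.FF3.B4 Fermat.Agent.FF3.DVCompl
  Fermat.Agent.FF3.GaussLoc Fermat.Agent.FF3.ExpandBR

attribute [local instance] normedAlgebraSubfield

/-! ### units of the integral Amice ring -/

section Ball

variable {K₁ : Type*} [NormedField K₁] [IsUltrametricDist K₁] [CompleteSpace K₁]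

/-- over a discretely normed field, an element of norm one of the Amice ring is a unit of the
integral Amice ring -/
theorem isUnit_ball_of_norm_eq_one {ϖ : K₁} (hϖ : AmiceU.IsDiscreteNorm ϖ)
    {x : AmiceU.ball (BAmice K₁)} (hx : ‖(x : BAmice K₁)‖ = 1) : IsUnit x := by
  have hx0 : (x : BAmice K₁) ≠ 0 := by
    intro h0
    rw [h0, norm_zero] at hx
    exact zero_ne_one hx
  obtain ⟨y, hxy, hy⟩ := AmiceU.exists_inv_of_discrete hϖ hx0
  rw [hx, inv_one] at hy
  exact IsUnit.of_mul_eq_one (⟨y, hy⟩ : AmiceU.ball (BAmice K₁)) (Subtype.ext hxy)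

end Ball

universe u

variable {K : Type} {F : Type u} [Field K] [Field F] [Algebra K F]
  {A : ValuationSubring K} [IsAlgClosed (ResidueField A)]
  {ι₀ : Type} {Ft₀ : ι₀ → Type} [∀ v, Field (Ft₀ v)] [∀ v, Algebra (ResidueField A) (Ft₀ v)]
  {ν₀ : Type} {S₀ : SemistableSetup (F := F) A (residue A) ι₀ Ft₀ ν₀} {e : ν₀} {ι : Type*}
  {L : AnnulusLevels A (tube S₀ e) ι} (Xb : BranchData S₀ e L) (i : ι)
  {Ω : Type u} [NormedField Ω] [IsUltrametricDist Ω] [CompleteSpace Ω]
  (j : K →+* Ω) (hj : ∀ c : K, ‖j c‖ ≤ 1 ↔ c ∈ A)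
  (hfull : LevelFullRes L i) (hcol : DenseNearOne j)
  {F₀ : Subfield F} {ϖ₀ : F₀}
  (D : ι₀ → Datum F₀) (hO : ∀ v (x : F₀), x ∈ (D v).O₀ ↔ (x : F) ∈ S₀.O v)
  (hw : ∀ v, (D v).w = ϖ₀)

/-- **The main-dialect inputs**: `F₀` is the fraction field of the level ring `R_i`, with the same
uniformiser (the first three fields of helper20's `NodeInput`). -/
structure LevelLink (L : AnnulusLevels A (tube S₀ e) ι) (i : ι) (ϖ₀ : F₀) : Prop where
  unif_eq : ((ϖ₀ : F₀) : F) = algebraMap K F (L.level i).ϖ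
  le_F₀ : ∀ y ∈ (L.level i).R, y ∈ F₀
  frac : ∀ h : F₀, ∃ a b : (L.level i).R, b ≠ 0 ∧ (h : F) * (b : F) = (a : F)

variable {i} (H : LevelLink L i ϖ₀)

section link

include hO hw H

/-- the link on the component `src e` (prime `p2`) -/
theorem link₁ : Link (D (S₀.src e)) (vertData₁ Xb i) where
  mem_iff := hO (S₀.src e)
  le := H.le_F₀
  frac := H.frac
  unif := by rw [hw]; exact H.unif_eq

/-- the link on the component `tgt e` (prime `p1`) -/
theorem link₂ : Link (D (S₀.tgt e)) (vertData₂ Xb i) where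
  mem_iff := hO (S₀.tgt e)
  le := H.le_F₀
  frac := H.frac
  unif := by rw [hw]; exact H.unif_eq

end link

variable (i)

/-- `toX ∘ levelExpand`, with values in the integral Amice ring -/
def psi₁ : (L.level i).R →+* AmiceU.ball (BAmice (constK₁ L i j)) :=
  (NodeRing.toXBall (thickK₁ L i j)).comp (levelExpand L i j hj hfull hcol)

/-- `toY ∘ levelExpand`, with values in the integral Amice ring -/
def psi₂ : (L.level i).R →+* AmiceU.ball (BAmice (constK₁ L i j)) :=
  (NodeRing.toYBall (thickK₁ L i j)).comp (levelExpand L i j hj hfull hcol)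

theorem coe_psi₁ (y : (L.level i).R) :
    ((psi₁ i j hj hfull hcol y : AmiceU.ball (BAmice (constK₁ L i j))) : BAmice (constK₁ L i j)) =
      NodeRing.toX ((levelExpand L i j hj hfull hcol y : NodeRing.NodeInt (thickK₁ L i j)) :
        NodeRing.NodeB (thickK₁ L i j)) := rfl

theorem coe_psi₂ (y : (L.level i).R) :
    ((psi₂ i j hj hfull hcol y : AmiceU.ball (BAmice (constK₁ L i j))) : BAmice (constK₁ L i j)) =
      NodeRing.toY ((levelExpand L i j hj hfull hcol y : NodeRing.NodeInt (thickK₁ L i j)) :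
        NodeRing.NodeB (thickK₁ L i j)) := rfl

theorem levelExpand_piR :
    levelExpand L i j hj hfull hcol (Xb.piR i) =
      NodeRing.cInt (unifK₁ L i j) (isDiscreteNorm_unifK₁ L i j hj).2.1.le := by
  have : Xb.piR i = constHom L i (unifW L i) := rfl
  rw [this, levelExpand_const]
  rfl

theorem psi₁_piR :
    psi₁ i j hj hfull hcol (Xb.piR i) =
      NodeRing.cBall (unifK₁ L i j) (isDiscreteNorm_unifK₁ L i j hj).2.1.le := by
  show NodeRing.toXBall _ (levelExpand L i j hj hfull hcol (Xb.piR i)) = _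
  rw [levelExpand_piR, NodeRing.toXBall_cInt]

theorem psi₂_piR :
    psi₂ i j hj hfull hcol (Xb.piR i) =
      NodeRing.cBall (unifK₁ L i j) (isDiscreteNorm_unifK₁ L i j hj).2.1.le := by
  show NodeRing.toYBall _ (levelExpand L i j hj hfull hcol (Xb.piR i)) = _
  rw [levelExpand_piR, NodeRing.toYBall_cInt]

/-- `toX ∘ levelExpand` inverts `R_i \ p2` -/
theorem isUnit_psi₁ (s : (L.level i).R) (hs : s ∉ (vertData₁ Xb i).J) :
    IsUnit (psi₁ i j hj hfull hcol s) := by
  refine isUnit_ball_of_norm_eq_one (isDiscreteNorm_unifK₁ L i j hj) ?_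
  rw [coe_psi₁]
  refine le_antisymm (NodeRing.norm_toX_le_one _) (not_lt.mp fun hlt => hs ?_)
  rw [vertData₁_J, mem_p2_iff Xb i]
  exact (levelGaussX Xb i j hj hfull hcol s).1 hlt

/-- `toY ∘ levelExpand` inverts `R_i \ p1` -/
theorem isUnit_psi₂ (s : (L.level i).R) (hs : s ∉ (vertData₂ Xb i).J) :
    IsUnit (psi₂ i j hj hfull hcol s) := by
  refine isUnit_ball_of_norm_eq_one (isDiscreteNorm_unifK₁ L i j hj) ?_
  rw [coe_psi₂]
  refine le_antisymm (NodeRing.norm_toY_le_one _) (not_lt.mp fun hlt => hs ?_)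
  rw [vertData₂_J, mem_p1_iff Xb i]
  exact (levelGaussY Xb i j hj hfull hcol s).1 hlt

theorem isAdicComplete_psi₁ :
    IsAdicComplete (Ideal.span {psi₁ i j hj hfull hcol (vertData₁ Xb i).ϖ})
      (AmiceU.ball (BAmice (constK₁ L i j))) := by
  rw [vertData₁_unif, psi₁_piR]
  exact NodeRing.isAdicComplete_ballAmice _ (norm_pos_iff.1 (isDiscreteNorm_unifK₁ L i j hj).1)
    (isDiscreteNorm_unifK₁ L i j hj).2.1

theorem isAdicComplete_psi₂ :
    IsAdicComplete (Ideal.span {psi₂ i j hj hfull hcol (vertData₂ Xb i).ϖ})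
      (AmiceU.ball (BAmice (constK₁ L i j))) := by
  rw [vertData₂_unif, psi₂_piR]
  exact NodeRing.isAdicComplete_ballAmice _ (norm_pos_iff.1 (isDiscreteNorm_unifK₁ L i j hj).1)
    (isDiscreteNorm_unifK₁ L i j hj).2.1

variable {i}

/-- **`b1` with values in the integral Amice ring**: THE extension of `toX ∘ levelExpand`. -/
def b1Ball : (D (S₀.src e)).Oh →+* AmiceU.ball (BAmice (constK₁ L i j)) :=
  (link₁ Xb D hO hw H).bOf (psi₁ i j hj hfull hcol) (isUnit_psi₁ Xb i j hj hfull hcol)
    (isAdicComplete_psi₁ Xb i j hj hfull hcol)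

/-- **`b2` with values in the integral Amice ring**: THE extension of `toY ∘ levelExpand`. -/
def b2Ball : (D (S₀.tgt e)).Oh →+* AmiceU.ball (BAmice (constK₁ L i j)) :=
  (link₂ Xb D hO hw H).bOf (psi₂ i j hj hfull hcol) (isUnit_psi₂ Xb i j hj hfull hcol)
    (isAdicComplete_psi₂ Xb i j hj hfull hcol)

/-- **The boundary map `b1`.** -/
def b1 : (D (S₀.src e)).Oh →+* BAmice (constK₁ L i j) :=
  (AmiceU.ball (BAmice (constK₁ L i j))).subtype.comp (b1Ball Xb j hj hfull hcol D hO hw H)

/-- **The boundary map `b2`.** -/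
def b2 : (D (S₀.tgt e)).Oh →+* BAmice (constK₁ L i j) :=
  (AmiceU.ball (BAmice (constK₁ L i j))).subtype.comp (b2Ball Xb j hj hfull hcol D hO hw H)

theorem norm_b1_le (y : (D (S₀.src e)).Oh) : ‖b1 Xb j hj hfull hcol D hO hw H y‖ ≤ 1 :=
  (b1Ball Xb j hj hfull hcol D hO hw H y).2

theorem norm_b2_le (y : (D (S₀.tgt e)).Oh) : ‖b2 Xb j hj hfull hcol D hO hw H y‖ ≤ 1 :=
  (b2Ball Xb j hj hfull hcol D hO hw H y).2

/-- the square on the side of `src e`, on `ℓ` -/
theorem b1_ell (y : (L.level i).R) :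
    b1 Xb j hj hfull hcol D hO hw H ((link₁ Xb D hO hw H).ell y) =
      NodeRing.toX ((levelExpand L i j hj hfull hcol y : NodeRing.NodeInt (thickK₁ L i j)) :
        NodeRing.NodeB (thickK₁ L i j)) := by
  show ((b1Ball Xb j hj hfull hcol D hO hw H ((link₁ Xb D hO hw H).ell y) :
    AmiceU.ball (BAmice (constK₁ L i j))) : BAmice (constK₁ L i j)) = _
  rw [b1Ball, Link.bOf_ell, coe_psi₁]

/-- the square on the side of `tgt e`, on `ℓ` -/
theorem b2_ell (y : (L.level i).R) :
    b2 Xb j hj hfull hcol D hO hw H ((link₂ Xb D hO hw H).ell y) =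
      NodeRing.toY ((levelExpand L i j hj hfull hcol y : NodeRing.NodeInt (thickK₁ L i j)) :
        NodeRing.NodeB (thickK₁ L i j)) := by
  show ((b2Ball Xb j hj hfull hcol D hO hw H ((link₂ Xb D hO hw H).ell y) :
    AmiceU.ball (BAmice (constK₁ L i j))) : BAmice (constK₁ L i j)) = _
  rw [b2Ball, Link.bOf_ell, coe_psi₂]

/-- `b1` on the constants of the level (the clause `hb1` of the gluing frame) -/
theorem b1_const (a : levelConst L i) :
    b1 Xb j hj hfull hcol D hO hw H ((link₁ Xb D hO hw H).ell (constHom L i a)) =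
      algebraMap (constK₁ L i j) (BAmice (constK₁ L i j)) (constToK₁ L i j a) := by
  rw [b1_ell, levelExpand_const, NodeRing.coe_cInt, AlgHom.commutes]

/-- `b2` on the constants of the level (the clause `hb2` of the gluing frame) -/
theorem b2_const (a : levelConst L i) :
    b2 Xb j hj hfull hcol D hO hw H ((link₂ Xb D hO hw H).ell (constHom L i a)) =
      algebraMap (constK₁ L i j) (BAmice (constK₁ L i j)) (constToK₁ L i j a) := by
  rw [b2_ell, levelExpand_const, NodeRing.coe_cInt, AlgHom.commutes]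

/-- uniqueness of `b1Ball` -/
theorem eq_b1Ball (β : (D (S₀.src e)).Oh →+* AmiceU.ball (BAmice (constK₁ L i j)))
    (hβ : ∀ y : (L.level i).R, β ((link₁ Xb D hO hw H).ell y) = psi₁ i j hj hfull hcol y) :
    β = b1Ball Xb j hj hfull hcol D hO hw H :=
  (link₁ Xb D hO hw H).eq_bOf _ _ _ β hβ

/-- uniqueness of `b2Ball` -/
theorem eq_b2Ball (β : (D (S₀.tgt e)).Oh →+* AmiceU.ball (BAmice (constK₁ L i j)))
    (hβ : ∀ y : (L.level i).R, β ((link₂ Xb D hO hw H).ell y) = psi₂ i j hj hfull hcol y) :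
    β = b2Ball Xb j hj hfull hcol D hO hw H :=
  (link₂ Xb D hO hw H).eq_bOf _ _ _ β hβ

/-- density of the rational functions modulo the uniformiser, in the shape of `NodeInput` -/
theorem dense_ofDatum (v : ι₀) (y : (CompPack.ofDatum S₀ D hO hw).Oh v) :
    ∃ (x : F₀) (hx : (x : F) ∈ S₀.O v) (y' : (CompPack.ofDatum S₀ D hO hw).Oh v),
      y = (CompPack.ofDatum S₀ D hO hw).ofRatAt v x hx + (CompPack.ofDatum S₀ D hO hw).unif v * y' := by
  obtain ⟨a, y', hy'⟩ := (D v).exists_wh_pow_dvd_sub_embO y 1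
  rw [pow_one] at hy'
  refine ⟨(a : F₀), (hO v a).1 a.2, y', ?_⟩
  have e : y = (D v).embO a + (D v).wh * y' := eq_add_of_sub_eq' hy'
  rw [e]
  congr 1
  · apply Subtype.ext
    exact (D v).coe_embO a
  · congr 1
    apply Subtype.ext
    show (((D v).wh : (D v).Oh) : (D v).Lh) = (D v).emb ϖ₀
    rw [(D v).coe_wh, hw v]

/-- **The `NodeInput` of helper20's node part at `CompPack.ofDatum`.** -/
def nodeInput : NodeInput Xb i j hj hfull hcol (CompPack.ofDatum S₀ D hO hw) where
  unif_eq := H.unif_eq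
  le_F₀ := H.le_F₀
  frac := H.frac
  b1 := b1 Xb j hj hfull hcol D hO hw H
  b2 := b2 Xb j hj hfull hcol D hO hw H
  norm_b1_le := norm_b1_le Xb j hj hfull hcol D hO hw H
  norm_b2_le := norm_b2_le Xb j hj hfull hcol D hO hw H
  comm₁ y := by
    rw [← b1_ell Xb j hj hfull hcol D hO hw H y]
    congr 1
    apply Subtype.ext
    exact ((link₁ Xb D hO hw H).coe_ell y).symm
  comm₂ y := by
    rw [← b2_ell Xb j hj hfull hcol D hO hw H y]
    congr 1
    apply Subtype.ext
    exact ((link₂ Xb D hO hw H).coe_ell y).symm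
  dense₁ := dense_ofDatum D hO hw (S₀.src e)
  dense₂ := dense_ofDatum D hO hw (S₀.tgt e)

/-- **The node part of the expansion package at `CompPack.ofDatum`**, from the three main-dialect
facts `LevelLink`. -/
def nodePart : B4.NodePart (CompPack.ofDatum S₀ D hO hw) e :=
  (nodeInput Xb j hj hfull hcol D hO hw H).nodePart

end Fermat.Agent.FF3.BLift
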