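import Mathlib
import Fermat.Agent.FF3.BLift.Node

/-!
# PROGRAMME I, step B: the boundary maps `b1`, `b2` on the constants of the level, in the shape
of the clauses `hb1`, `hb2` of the gluing frame (helper16)

For ANY element `x` of `O_v ∩ F₀` whose underlying function is the constant `c` of the level
(`c ∈ A ∩ K'_i`): `b1 (embO x) = algebraMap K₁ (BAmice K₁) (constToK₁ L i j ⟨c, _⟩)`.
-/

set_option autoImplicit false
set_option linter.unusedSectionVars false

noncomputable section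

namespace Fermat.Agent.FF3.BLift

open AlgebraicCurve IsLocalRing Fermat.Agent.Red Fermat.Agent.BR.Centre Fermat.Agent.BR.SS
  Fermat.Agent.BR.Refine Fermat.Agent.BR.S0 Fermat.Agent.BR.S0.AnnulusChartOfLevels
  Fermat.Agent.FF3 Fermat.Agent.FF3.Amice Fermat.Agent.FF3.B4 Fermat.Agent.FF3.DVCompl
  Fermat.Agent.FF3.GaussLoc Fermat.Agent.FF3.ExpandBR

attribute [local instance] normedAlgebraSubfield

universe u

variable {K : Type} {F : Type u} [Field K] [Field F] [Algebra K F]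
  {A : ValuationSubring K} [IsAlgClosed (ResidueField A)]
  {ι₀ : Type} {Ft₀ : ι₀ → Type} [∀ v, Field (Ft₀ v)] [∀ v, Algebra (ResidueField A) (Ft₀ v)]
  {ν₀ : Type} {S₀ : SemistableSetup (F := F) A (residue A) ι₀ Ft₀ ν₀} {e : ν₀} {ι : Type*}
  {L : AnnulusLevels A (tube S₀ e) ι} (Xb : BranchData S₀ e L) {i : ι}
  {Ω : Type u} [NormedField Ω] [IsUltrametricDist Ω] [CompleteSpace Ω]
  (j : K →+* Ω) (hj : ∀ c : K, ‖j c‖ ≤ 1 ↔ c ∈ A)
  (hfull : LevelFullRes L i) (hcol : DenseNearOne j)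
  {F₀ : Subfield F} {ϖ₀ : F₀}
  (D : ι₀ → Datum F₀) (hO : ∀ v (x : F₀), x ∈ (D v).O₀ ↔ (x : F) ∈ S₀.O v)
  (hw : ∀ v, (D v).w = ϖ₀) (H : LevelLink L i ϖ₀)

/-- **`hb1`**: `b1` on a constant of the level. -/
theorem b1_embO_const (a : levelConst L i) (x : (D (S₀.src e)).O₀)
    (hx : ((x : F₀) : F) = algebraMap K F (a : K)) :
    b1 Xb j hj hfull hcol D hO hw H ((D (S₀.src e)).embO x) =
      algebraMap (constK₁ L i j) (BAmice (constK₁ L i j)) (constToK₁ L i j a) := by
  have e1 : (link₁ Xb D hO hw H).ofR (constHom L i a) = x := by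
    apply Subtype.ext
    apply Subtype.ext
    exact hx.symm
  rw [← b1_const Xb j hj hfull hcol D hO hw H a, Link.ell_apply, e1]

/-- **`hb2`**: `b2` on a constant of the level. -/
theorem b2_embO_const (a : levelConst L i) (x : (D (S₀.tgt e)).O₀)
    (hx : ((x : F₀) : F) = algebraMap K F (a : K)) :
    b2 Xb j hj hfull hcol D hO hw H ((D (S₀.tgt e)).embO x) =
      algebraMap (constK₁ L i j) (BAmice (constK₁ L i j)) (constToK₁ L i j a) := by
  have e1 : (link₂ Xb D hO hw H).ofR (constHom L i a) = x := by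
    apply Subtype.ext
    apply Subtype.ext
    exact hx.symm
  rw [← b2_const Xb j hj hfull hcol D hO hw H a, Link.ell_apply, e1]

/-- the same for an element of the completed valuation ring given as `⟨emb x, _⟩` -/
theorem b1_mk_emb_const (a : levelConst L i) (x : F₀)
    (hx : (x : F) = algebraMap K F (a : K)) (hm : (D (S₀.src e)).emb x ∈ (D (S₀.src e)).Oh) :
    b1 Xb j hj hfull hcol D hO hw H ⟨(D (S₀.src e)).emb x, hm⟩ =
      algebraMap (constK₁ L i j) (BAmice (constK₁ L i j)) (constToK₁ L i j a) := by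
  have hx0 : x ∈ (D (S₀.src e)).O₀ := ((D (S₀.src e)).emb_mem_iff x).1 hm
  rw [← b1_embO_const Xb j hj hfull hcol D hO hw H a ⟨x, hx0⟩ hx]
  congr 1
  apply Subtype.ext
  exact ((D (S₀.src e)).coe_embO ⟨x, hx0⟩).symm

theorem b2_mk_emb_const (a : levelConst L i) (x : F₀)
    (hx : (x : F) = algebraMap K F (a : K)) (hm : (D (S₀.tgt e)).emb x ∈ (D (S₀.tgt e)).Oh) :
    b2 Xb j hj hfull hcol D hO hw H ⟨(D (S₀.tgt e)).emb x, hm⟩ =
      algebraMap (constK₁ L i j) (BAmice (constK₁ L i j)) (constToK₁ L i j a) := by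
  have hx0 : x ∈ (D (S₀.tgt e)).O₀ := ((D (S₀.tgt e)).emb_mem_iff x).1 hm
  rw [← b2_embO_const Xb j hj hfull hcol D hO hw H a ⟨x, hx0⟩ hx]
  congr 1
  apply Subtype.ext
  exact ((D (S₀.tgt e)).coe_embO ⟨x, hx0⟩).symm

end Fermat.Agent.FF3.BLift
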