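import Mathlib
import Fermat.Agent.FF3.BLift.Const

/-!
# PROGRAMME I, step B: the constants of the gluing frame (helper16)

`W ≤ A` a subring of integral constants lying in the level field `F₀` (intended: `W = WS B q Sl`,
the integers of the level).  Then

* `cO v : W →+* (D v).Oh` : the constants inside the completed valuation ring of the component `v`
  (the maps `cOi := cO 0`, `cOz := cO 1` of the gluing frame; they do NOT depend on the node);
* for a node `e` and a level `i` whose constant field contains `W`: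
  `iotaW : W →+* constK₁ L i j` (`= j` restricted; injective), and the clauses
  `b1_cO : b1 (cO (src e) c) = algebraMap K₁ (BAmice K₁) (iotaW c)`, `b2_cO` (= `hb1`, `hb2` of
  helper28's `GlueNode.frameBW`).
-/

set_option autoImplicit false
set_option linter.unusedSectionVars false

noncomputable section

namespace Fermat.Agent.FF3.BLift

open AlgebraicCurve IsLocalRing Fermat.Agent.Red Fermat.Agent.BR.Centre Fermat.Agent.BR.SS
  Fermat.Agent.BR.Refine Fermat.Agent.BR.S0 Fermat.Agent.BR.S0.AnnulusChartOfLevels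
  Fermat.Agent.FF3 Fermat.Agent.FF3.Amice Fermat.Agent.FF3.B4 Fermat.Agent.FF3.DVCompl
  Fermat.Agent.FF3.GaussLoc Fermat.Agent.FF3.ExpandBR

attribute [local instance] normedAlgebraSubfield

universe u

variable {K : Type} {F : Type u} [Field K] [Field F] [Algebra K F]
  {A : ValuationSubring K} [IsAlgClosed (ResidueField A)]
  {ι₀ : Type} {Ft₀ : ι₀ → Type} [∀ v, Field (Ft₀ v)] [∀ v, Algebra (ResidueField A) (Ft₀ v)]
  {ν₀ : Type} {S₀ : SemistableSetup (F := F) A (residue A) ι₀ Ft₀ ν₀}
  {F₀ : Subfield F} {ϖ₀ : F₀}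
  (D : ι₀ → Datum F₀) (hO : ∀ v (x : F₀), x ∈ (D v).O₀ ↔ (x : F) ∈ S₀.O v)
  (W : Subring K) (hWA : ∀ c ∈ W, c ∈ A) (hWF : ∀ c ∈ W, algebraMap K F c ∈ F₀)

/-- the constants `W`, inside `O_v ∩ F₀` -/
def wToO₀ (v : ι₀) : W →+* (D v).O₀ where
  toFun c := ⟨⟨algebraMap K F (c : K), hWF c c.2⟩,
    (hO v _).2 ((S₀.algebraMap_mem_iff v (c : K)).2 (hWA c c.2))⟩
  map_one' := by
    apply Subtype.ext
    apply Subtype.ext
    exact map_one (algebraMap K F)
  map_mul' a b := by
    apply Subtype.ext
    apply Subtype.ext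
    exact map_mul (algebraMap K F) _ _
  map_zero' := by
    apply Subtype.ext
    apply Subtype.ext
    exact map_zero (algebraMap K F)
  map_add' a b := by
    apply Subtype.ext
    apply Subtype.ext
    exact map_add (algebraMap K F) _ _

@[simp] theorem coe_wToO₀ (v : ι₀) (c : W) :
    (((wToO₀ D hO W hWA hWF v c : (D v).O₀) : F₀) : F) = algebraMap K F (c : K) := rfl

/-- **the constants inside the completed valuation ring of the component `v`** (`cOi`, `cOz`) -/
def cO (v : ι₀) : W →+* (D v).Oh := (D v).embO.comp (wToO₀ D hO W hWA hWF v)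

theorem cO_apply (v : ι₀) (c : W) :
    cO D hO W hWA hWF v c = (D v).embO (wToO₀ D hO W hWA hWF v c) := rfl

theorem coe_cO (v : ι₀) (c : W) :
    ((cO D hO W hWA hWF v c : (D v).Oh) : (D v).Lh) =
      (D v).emb ⟨algebraMap K F (c : K), hWF c c.2⟩ := by
  rw [cO_apply, (D v).coe_embO]
  rfl

theorem cO_injective (v : ι₀) : Function.Injective (cO D hO W hWA hWF v) := by
  intro a b hab
  have h1 : wToO₀ D hO W hWA hWF v a = wToO₀ D hO W hWA hWF v b := (D v).embO_injective hab
  have h2 : algebraMap K F (a : K) = algebraMap K F (b : K) :=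
    congrArg (fun x : (D v).O₀ => ((x : F₀) : F)) h1
  exact Subtype.ext ((algebraMap K F).injective h2)

section node

variable {e : ν₀} {ι : Type*} (L : AnnulusLevels A (tube S₀ e) ι) (i : ι)
  {Ω : Type u} [NormedField Ω] [IsUltrametricDist Ω] [CompleteSpace Ω]
  (j : K →+* Ω)

/-- `W` inside the constants of the level `i` -/
def wToLevelConst (hWL : ∀ c ∈ W, c ∈ (L.level i).K') : W →+* levelConst L i :=
  Subring.inclusion (fun c hc => (mem_levelConst L i).mpr ⟨hWA c hc, hWL c hc⟩)

@[simp] theorem coe_wToLevelConst (hWL : ∀ c ∈ W, c ∈ (L.level i).K') (c : W) :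
    ((wToLevelConst W hWA L i hWL c : levelConst L i) : K) = (c : K) := rfl

/-- **`ι_e : W →+* K₁`**: the constants `W` in the completed constant field of the level -/
def iotaW (hWL : ∀ c ∈ W, c ∈ (L.level i).K') : W →+* constK₁ L i j :=
  (constToK₁ L i j).comp (wToLevelConst W hWA L i hWL)

@[simp] theorem coe_iotaW (hWL : ∀ c ∈ W, c ∈ (L.level i).K') (c : W) :
    ((iotaW W hWA L i j hWL c : constK₁ L i j) : Ω) = j (c : K) := rfl

theorem iotaW_injective (hWL : ∀ c ∈ W, c ∈ (L.level i).K') :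
    Function.Injective (iotaW W hWA L i j hWL) := by
  intro a b hab
  have h1 : j (a : K) = j (b : K) := congrArg (fun x : constK₁ L i j => (x : Ω)) hab
  exact Subtype.ext (j.injective h1)

end node

section clauses

variable {e : ν₀} {ι : Type*} {L : AnnulusLevels A (tube S₀ e) ι} (Xb : BranchData S₀ e L) {i : ι}
  {Ω : Type u} [NormedField Ω] [IsUltrametricDist Ω] [CompleteSpace Ω]
  (j : K →+* Ω) (hj : ∀ c : K, ‖j c‖ ≤ 1 ↔ c ∈ A)
  (hfull : LevelFullRes L i) (hcol : DenseNearOne j)
  (hw : ∀ v, (D v).w = ϖ₀) (H : LevelLink L i ϖ₀)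
  (hWL : ∀ c ∈ W, c ∈ (L.level i).K')

/-- **`hb1`** of the gluing frame -/
theorem b1_cO (c : W) :
    b1 Xb j hj hfull hcol D hO hw H (cO D hO W hWA hWF (S₀.src e) c) =
      algebraMap (constK₁ L i j) (BAmice (constK₁ L i j)) (iotaW W hWA L i j hWL c) :=
  b1_embO_const Xb j hj hfull hcol D hO hw H (wToLevelConst W hWA L i hWL c)
    (wToO₀ D hO W hWA hWF (S₀.src e) c) rfl

/-- **`hb2`** of the gluing frame -/
theorem b2_cO (c : W) :
    b2 Xb j hj hfull hcol D hO hw H (cO D hO W hWA hWF (S₀.tgt e) c) =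
      algebraMap (constK₁ L i j) (BAmice (constK₁ L i j)) (iotaW W hWA L i j hWL c) :=
  b2_embO_const Xb j hj hfull hcol D hO hw H (wToLevelConst W hWA L i hWL c)
    (wToO₀ D hO W hWA hWF (S₀.tgt e) c) rfl

end clauses

end Fermat.Agent.FF3.BLift
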