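import Mathlib
import Fermat.Agent.FF3.BLift.Node
import Fermat.Agent.FF3.ExpandBR.ModularPart

/-!
# PROGRAMME I, step B, T3 node part at the modular tower (helper16)

For the level `S : Finset Kb` of the tube of a crossing `e` of the two-component model of
`X₀(qM)`: the node part `B4.NodePart (CompPack.ofDatum (setupFinal …) D hO hw) e` of the expansion
package, for ANY family of component data `D v : DVCompl.Datum (FS (M * q) q S)` with
`O₀ = O_v ∩ F_S` and uniformiser `unifFS B hB S` (helper24's `compDatum`, helper21's `datum`),
with no hypothesis left besides the plug-in `(Ω, j, hj)`.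
-/

set_option autoImplicit false
set_option synthInstance.maxHeartbeats 400000
set_option maxHeartbeats 4000000

noncomputable section

namespace Fermat.Agent.FF3.BLift

open AlgebraicCurve ModularCurve IsLocalRing Fermat.Agent.Red Fermat.Agent.X0
  Fermat.Agent.BR Fermat.Agent.BR.Centre Fermat.Agent.BR.S0 Fermat.Agent.BR.SS
  Fermat.Agent.BR.S0.RedModular
  Fermat.Agent.BR.S0.RedHyp Fermat.Agent.BR.S0.PointDict Fermat.Agent.BR.Inst.AnnulusInstFinal
  Fermat.Agent.BR.Inst.Levels Fermat.Agent.BR.Inst.NodeInst Fermat.Agent.BR.Inst.LocSub
  Fermat.Agent.FF3 Fermat.Agent.FF3.B4 Fermat.Agent.FF3.DVCompl Fermat.Agent.FF3.ExpandBR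

local notation "Kb" => AlgebraicClosure ℚ

variable {M q : ℕ} [NeZero M] [hq : Fact q.Prime]
variable (B : ValuationSubring Kb) (hB : B.LiesOverPrime q) (hqM : ¬ q ∣ M)
variable [IsAlgClosed (ResidueField B)]
variable (hne : Nonempty (Crossing (chartDataModular B hB hqM)))
variable (e : Crossing (chartDataModular B hB hqM))
variable {Ω : Type} [NormedField Ω] [IsUltrametricDist Ω] [CompleteSpace Ω]
  (j : Kb →+* Ω) (hj : ∀ c : Kb, ‖j c‖ ≤ 1 ↔ c ∈ B) (S : Finset Kb)

/-- **The three main-dialect facts at the level `S`** (helper20's `ModularPart`). -/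
theorem levelLink_modular :
    LevelLink (annulusLevels_modular_final B hB hqM hne e) S (unifFS (M := M) B hB S) where
  unif_eq := coe_unifFS B hB hqM hne e S
  le_F₀ := level_le_FS B hB hqM hne e S
  frac := level_frac B hB hqM hne e S

omit [CompleteSpace Ω] in
include hj hne e in
/-- the value group of `j` is dense near `1` (`Kb` is algebraically closed) -/
theorem denseNearOne_modular : DenseNearOne j :=
  denseNearOne_of_isAlgClosed j
    ⟨(annulusLevels_modular_final B hB hqM hne e).thick,
      fun h0 => (norm_thick_pos (annulusLevels_modular_final B hB hqM hne e) j hj).ne'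
        (by rw [h0, map_zero, norm_zero]),
      norm_thick_lt_one (annulusLevels_modular_final B hB hqM hne e) j hj⟩

variable (D : Fin 2 → Datum (FS (M * q) q S))
  (hO : ∀ v (x : FS (M * q) q S),
    x ∈ (D v).O₀ ↔ (x : Fb (M * q)) ∈ (Final.setupFinal B hB hqM hne).O v)
  (hw : ∀ v, (D v).w = unifFS (M := M) B hB S)

/-- **The node input at the level `S` of the modular tower.** -/
def nodeInput_modular :
    NodeInput (branchData_modular_final B hB hqM hne e) S j hj
      (levelFullRes_modular_final B hB hqM hne e S) (denseNearOne_modular B hB hqM hne e j hj)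
      (CompPack.ofDatum (Final.setupFinal B hB hqM hne) D hO hw) :=
  nodeInput (branchData_modular_final B hB hqM hne e) j hj
    (levelFullRes_modular_final B hB hqM hne e S) (denseNearOne_modular B hB hqM hne e j hj)
    D hO hw (levelLink_modular B hB hqM hne e S)

/-- **The node part of the expansion package at the level `S` of the modular tower.** -/
def nodePart_modular :
    B4.NodePart (CompPack.ofDatum (Final.setupFinal B hB hqM hne) D hO hw) e :=
  (nodeInput_modular B hB hqM hne e j hj S D hO hw).nodePart

end Fermat.Agent.FF3.BLift
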