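import Mathlib
import Fermat.Agent.FF3.BLift.Modular
import Fermat.Agent.FF3.DiscInst.CompDatum

/-!
# PROGRAMME I, step B, T3: component pack + node part at the modular tower, hypothesis-free
(helper16; plug of helper24's `DiscInst.compDatum` into `BLift.nodePart_modular`)

* `compPack B hB hqM hne S` : the component part `CompPack.ofDatum (setupFinal …) compDatum`;
* `nodePartComp B hB hqM hne e j hj S : B4.NodePart (compPack B hB hqM hne S) e`.
-/

set_option autoImplicit false
set_option synthInstance.maxHeartbeats 400000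
set_option maxHeartbeats 4000000

noncomputable section

namespace Fermat.Agent.FF3.BLift

open AlgebraicCurve ModularCurve IsLocalRing Fermat.Agent.Red Fermat.Agent.X0
  Fermat.Agent.BR Fermat.Agent.BR.Centre Fermat.Agent.BR.S0 Fermat.Agent.BR.SS
  Fermat.Agent.BR.S0.RedModular
  Fermat.Agent.BR.S0.RedHyp Fermat.Agent.BR.S0.PointDict Fermat.Agent.BR.Inst.AnnulusInstFinal
  Fermat.Agent.BR.Inst.Levels Fermat.Agent.BR.Inst.NodeInst Fermat.Agent.BR.Inst.LocSub
  Fermat.Agent.FF3 Fermat.Agent.FF3.B4 Fermat.Agent.FF3.DVCompl Fermat.Agent.FF3.ExpandBR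

local notation "Kb" => AlgebraicClosure ℚ

variable {M q : ℕ} [NeZero M] [hq : Fact q.Prime]
variable (B : ValuationSubring Kb) (hB : B.LiesOverPrime q) (hqM : ¬ q ∣ M)
variable [IsAlgClosed (ResidueField B)]
variable (hne : Nonempty (Crossing (chartDataModular B hB hqM)))
variable (e : Crossing (chartDataModular B hB hqM))
variable {Ω : Type} [NormedField Ω] [IsUltrametricDist Ω] [CompleteSpace Ω]
  (j : Kb →+* Ω) (hj : ∀ c : Kb, ‖j c‖ ≤ 1 ↔ c ∈ B) (S : Finset Kb)

/-- **The component part of the expansion package at the level `S`** (helper24's data). -/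
def compPack :
    CompPack (Final.setupFinal B hB hqM hne) (FS (M * q) q S) (ExpandBR.unifFS (M := M) B hB S) :=
  CompPack.ofDatum (Final.setupFinal B hB hqM hne) (fun v => DiscInst.compDatum B hB hqM v S)
    (fun _ _ => Iff.rfl) (fun _ => rfl)

/-- **The node part of the expansion package at the level `S`**, hypothesis-free. -/
def nodePartComp : B4.NodePart (compPack B hB hqM hne S) e :=
  nodePart_modular B hB hqM hne e j hj S (fun v => DiscInst.compDatum B hB hqM v S)
    (fun _ _ => Iff.rfl) (fun _ => rfl)

end Fermat.Agent.FF3.BLift
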