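import Mathlib
import Fermat.Agent.FF3.BLift.ConstFrame
import Fermat.Agent.FF3.BLift.ModularComp

/-!
# PROGRAMME I, step B: the constants of the gluing frame at the modular tower (helper16)

Items (F2), (F3), (F4) of the frame plan, at the level `S : Finset Kb` of the modular tower, with
`W := WS B q S` (the integers of the coefficient field of the level):

* `cOS v : WS B q S →+* (D v).Oh` for ANY family of component data `D` (`cOi := cOS … 0`,
  `cOz := cOS … 1`), `coe_cOS`, `cOS_injective`;
* `iotaWS e : WS B q S →+* constK₁ (L e) S j` (`j` restricted), `coe_iotaWS`, `iotaWS_injective`;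
* `b1_cOS`, `b2_cOS` : the clauses `hb1`, `hb2` of `GlueNode.frameBW` for `BLift.b1`, `BLift.b2`;
* `cOComp`, `b1_cOComp`, `b2_cOComp`: the same at helper24's `DiscInst.compDatum`
  (the component pack `BLift.compPack`).
-/

set_option autoImplicit false
set_option linter.unusedSectionVars false
set_option synthInstance.maxHeartbeats 400000
set_option maxHeartbeats 4000000

noncomputable section

namespace Fermat.Agent.FF3.BLift

open AlgebraicCurve ModularCurve IsLocalRing Fermat.Agent.Red Fermat.Agent.X0
  Fermat.Agent.BR Fermat.Agent.BR.Centre Fermat.Agent.BR.S0 Fermat.Agent.BR.SS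
  Fermat.Agent.BR.S0.RedModular
  Fermat.Agent.BR.S0.RedHyp Fermat.Agent.BR.S0.PointDict Fermat.Agent.BR.Inst.AnnulusInstFinal
  Fermat.Agent.BR.Inst.Levels Fermat.Agent.BR.Inst.NodeInst Fermat.Agent.BR.Inst.LocSub
  Fermat.Agent.FF3 Fermat.Agent.FF3.Amice Fermat.Agent.FF3.B4 Fermat.Agent.FF3.DVCompl
  Fermat.Agent.FF3.ExpandBR

attribute [local instance] normedAlgebraSubfield

local notation "Kb" => AlgebraicClosure ℚ

variable {M q : ℕ} [NeZero M] [hq : Fact q.Prime]
variable (B : ValuationSubring Kb) (hB : B.LiesOverPrime q) (hqM : ¬ q ∣ M)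
variable [IsAlgClosed (ResidueField B)]
variable (hne : Nonempty (Crossing (chartDataModular B hB hqM)))
variable (e : Crossing (chartDataModular B hB hqM))
variable {Ω : Type} [NormedField Ω] [IsUltrametricDist Ω] [CompleteSpace Ω]
  (j : Kb →+* Ω) (hj : ∀ c : Kb, ‖j c‖ ≤ 1 ↔ c ∈ B) (S : Finset Kb)

/-! ### the constants of the level -/

/-- the constant field of the level `S` is the field of constants of the fraction field of the
local ring of the level -/
theorem level_K'_eq_constField :
    ((annulusLevels_modular_final B hB hqM hne e).level S).K' =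
      constField Kb ((annulusLevels_modular_final B hB hqM hne e).level S).R := rfl

/-- **`K₀(S) ⊆ K'_S`**: the coefficient field of the level lies in its constant field. -/
theorem KS_le_level_K' {c : Kb} (hc : c ∈ KS q S) :
    c ∈ ((annulusLevels_modular_final B hB hqM hne e).level S).K' := by
  rw [level_K'_eq_constField]
  obtain ⟨a, b, hb, hab⟩ := level_frac B hB hqM hne e S
    ⟨algebraMap Kb (Fb (M * q)) c, const_mem_FS (M * q) q hc⟩
  exact mem_constField_iff.mpr ⟨a, b, hb, hab⟩

/-- `W'_S ⊆ B` -/
theorem WS_le_B : ∀ c ∈ WS B q S, c ∈ B := fun _ hc => hc.1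

/-- `W'_S ⊆ F_S` -/
theorem WS_le_FS : ∀ c ∈ WS B q S, algebraMap Kb (Fb (M * q)) c ∈ FS (M * q) q S :=
  fun _ hc => const_mem_FS (M * q) q hc.2

/-- `W'_S ⊆ K'_S` -/
theorem WS_le_level_K' :
    ∀ c ∈ WS B q S, c ∈ ((annulusLevels_modular_final B hB hqM hne e).level S).K' :=
  fun _ hc => KS_le_level_K' B hB hqM hne e S hc.2

/-! ### (F3): the constants in the completed constant field of the node -/

/-- **`ι_e : W'_S →+* K₁(e)`** (`j` restricted). -/
def iotaWS : WS B q S →+* constK₁ (annulusLevels_modular_final B hB hqM hne e) S j :=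
  iotaW (WS B q S) (WS_le_B B S) (annulusLevels_modular_final B hB hqM hne e) S j
    (WS_le_level_K' B hB hqM hne e S)

@[simp] theorem coe_iotaWS (c : WS B q S) :
    ((iotaWS B hB hqM hne e j S c :
      constK₁ (annulusLevels_modular_final B hB hqM hne e) S j) : Ω) = j (c : Kb) := rfl

theorem iotaWS_injective : Function.Injective (iotaWS B hB hqM hne e j S) :=
  iotaW_injective (WS B q S) (WS_le_B B S) (annulusLevels_modular_final B hB hqM hne e) S j
    (WS_le_level_K' B hB hqM hne e S)

/-! ### (F2), (F4): the constants in the completed valuation rings, and the clauses -/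

section datum

variable (D : Fin 2 → Datum (FS (M * q) q S))
  (hO : ∀ v (x : FS (M * q) q S),
    x ∈ (D v).O₀ ↔ (x : Fb (M * q)) ∈ (Final.setupFinal B hB hqM hne).O v)
  (hw : ∀ v, (D v).w = unifFS (M := M) B hB S)

/-- **`cO_v : W'_S →+* Ô_v`** (`cOi := cOS … 0`, `cOz := cOS … 1`). -/
def cOS (v : Fin 2) : WS B q S →+* (D v).Oh :=
  cO D hO (WS B q S) (WS_le_B B S) (WS_le_FS B S) v

theorem coe_cOS (v : Fin 2) (c : WS B q S) :
    ((cOS B hB hqM hne S D hO v c : (D v).Oh) : (D v).Lh) =
      (D v).emb ⟨algebraMap Kb (Fb (M * q)) (c : Kb), WS_le_FS B S c c.2⟩ :=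
  coe_cO D hO (WS B q S) (WS_le_B B S) (WS_le_FS B S) v c

theorem cOS_injective (v : Fin 2) : Function.Injective (cOS B hB hqM hne S D hO v) :=
  cO_injective D hO (WS B q S) (WS_le_B B S) (WS_le_FS B S) v

/-- **`hb1`**: `b1 (cO_0 c) = ι_e c`. -/
theorem b1_cOS (c : WS B q S) :
    b1 (branchData_modular_final B hB hqM hne e) j hj
        (levelFullRes_modular_final B hB hqM hne e S) (denseNearOne_modular B hB hqM hne e j hj)
        D hO hw (levelLink_modular B hB hqM hne e S) (cOS B hB hqM hne S D hO 0 c) =
      algebraMap (constK₁ (annulusLevels_modular_final B hB hqM hne e) S j)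
        (BAmice (constK₁ (annulusLevels_modular_final B hB hqM hne e) S j))
        (iotaWS B hB hqM hne e j S c) :=
  b1_cO D hO (WS B q S) (WS_le_B B S) (WS_le_FS B S)
    (branchData_modular_final B hB hqM hne e) j hj
    (levelFullRes_modular_final B hB hqM hne e S) (denseNearOne_modular B hB hqM hne e j hj)
    hw (levelLink_modular B hB hqM hne e S) (WS_le_level_K' B hB hqM hne e S) c

/-- **`hb2`**: `b2 (cO_1 c) = ι_e c`. -/
theorem b2_cOS (c : WS B q S) :
    b2 (branchData_modular_final B hB hqM hne e) j hj
        (levelFullRes_modular_final B hB hqM hne e S) (denseNearOne_modular B hB hqM hne e j hj)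
        D hO hw (levelLink_modular B hB hqM hne e S) (cOS B hB hqM hne S D hO 1 c) =
      algebraMap (constK₁ (annulusLevels_modular_final B hB hqM hne e) S j)
        (BAmice (constK₁ (annulusLevels_modular_final B hB hqM hne e) S j))
        (iotaWS B hB hqM hne e j S c) :=
  b2_cO D hO (WS B q S) (WS_le_B B S) (WS_le_FS B S)
    (branchData_modular_final B hB hqM hne e) j hj
    (levelFullRes_modular_final B hB hqM hne e S) (denseNearOne_modular B hB hqM hne e j hj)
    hw (levelLink_modular B hB hqM hne e S) (WS_le_level_K' B hB hqM hne e S) c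

/-- `hb1` at the node part: the `b1` field of `nodePart_modular` -/
theorem nodePart_b1_cOS (c : WS B q S) :
    (nodePart_modular B hB hqM hne e j hj S D hO hw).b1 (cOS B hB hqM hne S D hO 0 c) =
      algebraMap (constK₁ (annulusLevels_modular_final B hB hqM hne e) S j)
        (BAmice (constK₁ (annulusLevels_modular_final B hB hqM hne e) S j))
        (iotaWS B hB hqM hne e j S c) :=
  b1_cOS B hB hqM hne e j hj S D hO hw c

/-- `hb2` at the node part: the `b2` field of `nodePart_modular` -/
theorem nodePart_b2_cOS (c : WS B q S) :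
    (nodePart_modular B hB hqM hne e j hj S D hO hw).b2 (cOS B hB hqM hne S D hO 1 c) =
      algebraMap (constK₁ (annulusLevels_modular_final B hB hqM hne e) S j)
        (BAmice (constK₁ (annulusLevels_modular_final B hB hqM hne e) S j))
        (iotaWS B hB hqM hne e j S c) :=
  b2_cOS B hB hqM hne e j hj S D hO hw c

end datum

/-! ### at helper24's component data -/

/-- **`cO_v`** at the component pack `BLift.compPack` (helper24's `compDatum`). -/
def cOComp (v : Fin 2) : WS B q S →+* (compPack B hB hqM hne S).Oh v :=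
  cOS B hB hqM hne S (fun v => DiscInst.compDatum B hB hqM v S) (fun _ _ => Iff.rfl) v

theorem cOComp_injective (v : Fin 2) : Function.Injective (cOComp B hB hqM hne S v) :=
  cOS_injective B hB hqM hne S (fun v => DiscInst.compDatum B hB hqM v S) (fun _ _ => Iff.rfl) v

/-- **`hb1`** at `nodePartComp`. -/
theorem b1_cOComp (c : WS B q S) :
    (nodePartComp B hB hqM hne e j hj S).b1 (cOComp B hB hqM hne S 0 c) =
      algebraMap (constK₁ (annulusLevels_modular_final B hB hqM hne e) S j)
        (BAmice (constK₁ (annulusLevels_modular_final B hB hqM hne e) S j))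
        (iotaWS B hB hqM hne e j S c) :=
  b1_cOS B hB hqM hne e j hj S (fun v => DiscInst.compDatum B hB hqM v S)
    (fun _ _ => Iff.rfl) (fun _ => rfl) c

/-- **`hb2`** at `nodePartComp`. -/
theorem b2_cOComp (c : WS B q S) :
    (nodePartComp B hB hqM hne e j hj S).b2 (cOComp B hB hqM hne S 1 c) =
      algebraMap (constK₁ (annulusLevels_modular_final B hB hqM hne e) S j)
        (BAmice (constK₁ (annulusLevels_modular_final B hB hqM hne e) S j))
        (iotaWS B hB hqM hne e j S c) :=
  b2_cOS B hB hqM hne e j hj S (fun v => DiscInst.compDatum B hB hqM v S)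
    (fun _ _ => Iff.rfl) (fun _ => rfl) c

end Fermat.Agent.FF3.BLift
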